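import Mathlib.NumberTheory.EllipticDivisibilitySequence
import Mathlib.Algebra.MvPolynomial.CommRing
import Mathlib.Algebra.MvPolynomial.Nilpotent
import Mathlib.RingTheory.MvPolynomial.Basic
import Mathlib.Tactic.LinearCombination

/-!
# The Somos-4 relation and its invariant for normalised elliptic divisibility sequences

Two identities satisfied by `normEDS b c d` over any commutative ring:

* `normEDS_somos`: `W(m+2) W(m-2) = b² W(m+1) W(m-1) - c W(m)²`;
* `normEDS_invariant`: if `d = c K - b⁴` then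
  `W(m-2) W(m+1)² + W(m-1)² W(m+2) + b² W(m)³ = K W(m-1) W(m) W(m+1)`.

Both are proved in a universal polynomial ring, where cancellation is possible.
-/

set_option linter.unnecessarySeqFocus false
set_option linter.unreachableTactic false
set_option linter.unusedTactic false

namespace Fermat.Agent.EC

section Somos

variable {R : Type*} [CommRing R]

/-- Inductive step of the Somos-4 relation at an even index `2k`, multiplied by `b²`. -/
private lemma somos_step_even {β γ g a b' c' d' e f u v w₁ w₂ w₃ : R}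
    (h₁ : f * b' = β ^ 2 * e * c' - γ * d' ^ 2) (h₂ : e * a = β ^ 2 * d' * b' - γ * c' ^ 2)
    (h₃ : d' * g = β ^ 2 * c' * a - γ * b' ^ 2)
    (hu : u * β = c' ^ 2 * d' * f - b' * d' * e ^ 2)
    (hv : v * β = a ^ 2 * b' * d' - g * b' * c' ^ 2)
    (hw₁ : w₁ = e * c' ^ 3 - b' * d' ^ 3)
    (hw₂ : w₂ = d' * b' ^ 3 - a * c' ^ 3)
    (hw₃ : w₃ * β = b' ^ 2 * c' * e - a * c' * d' ^ 2) :
    β ^ 2 * (u * v) = β ^ 2 * (β ^ 2 * w₁ * w₂ - γ * w₃ ^ 2) := by
  have e₁ : β ^ 2 * (u * v) =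
      ((β ^ 2 * e * c' - γ * d' ^ 2) * c' ^ 2 - b' ^ 2 * e ^ 2) *
        (a ^ 2 * d' ^ 2 - (β ^ 2 * c' * a - γ * b' ^ 2) * c' ^ 2) := by
    rw [← h₁, ← h₃]
    linear_combination (v * β) * hu + (c' ^ 2 * d' * f - b' * d' * e ^ 2) * hv
  have e₂ : β ^ 2 * (β ^ 2 * w₁ * w₂ - γ * w₃ ^ 2) =
      β ^ 4 * (e * c' ^ 3 - b' * d' ^ 3) * (d' * b' ^ 3 - a * c' ^ 3) -
        γ * c' ^ 2 * (b' ^ 2 * e - a * d' ^ 2) ^ 2 := by
    rw [hw₁, hw₂]
    linear_combination -γ * (w₃ * β + (b' ^ 2 * c' * e - a * c' * d' ^ 2)) * hw₃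
  rw [e₁, e₂]
  linear_combination
    (β ^ 2 * c' ^ 3 * (b' ^ 2 * e + a * d' ^ 2) -
      b' ^ 2 * d' ^ 2 * (e * a + γ * c' ^ 2 + β ^ 2 * d' * b')) * h₂

/-- Inductive step of the Somos-4 relation at an odd index `2k+1`. -/
private lemma somos_step_odd {β γ a b' c' d' e f u v w₁ w₂ w₃ : R}
    (h₁ : f * b' = β ^ 2 * e * c' - γ * d' ^ 2) (h₂ : e * a = β ^ 2 * d' * b' - γ * c' ^ 2)
    (hu : u = f * d' ^ 3 - c' * e ^ 3)
    (hv : v = d' * b' ^ 3 - a * c' ^ 3)
    (hw₁ : w₁ * β = c' ^ 2 * d' * f - b' * d' * e ^ 2)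
    (hw₂ : w₂ * β = b' ^ 2 * c' * e - a * c' * d' ^ 2)
    (hw₃ : w₃ = e * c' ^ 3 - b' * d' ^ 3) :
    u * v = β ^ 2 * w₁ * w₂ - γ * w₃ ^ 2 := by
  have e₂ : β ^ 2 * w₁ * w₂ =
      (c' ^ 2 * d' * f - b' * d' * e ^ 2) * (b' ^ 2 * c' * e - a * c' * d' ^ 2) := by
    linear_combination (w₂ * β) * hw₁ + (c' ^ 2 * d' * f - b' * d' * e ^ 2) * hw₂
  rw [e₂, hu, hv, hw₃]
  linear_combination b' * d' * (b' * d' ^ 3 - e * c' ^ 3) * h₁ -
    e * c' * (b' * d' ^ 3 - e * c' ^ 3) * h₂

/-- The Somos-4 relation in a domain with `b ≠ 0`. -/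
private lemma normEDS_somos_of_domain [IsDomain R] {β : R} (hβ : β ≠ 0) (γ δ : R) :
    ∀ m : ℕ, normEDS β γ δ (m + 2) * normEDS β γ δ (m - 2) =
      β ^ 2 * normEDS β γ δ (m + 1) * normEDS β γ δ (m - 1) - γ * normEDS β γ δ m ^ 2 := by
  intro m
  induction m using Nat.strong_induction_on with
  | _ m ih =>
    match m with
    | 0 => simp; ring
    | 1 => norm_num
    | 2 => norm_num; ring
    | n + 3 =>
      have hev := normEDS_even β γ δ
      have hod := normEDS_odd β γ δ
      rcases Nat.even_or_odd' (n + 3) with ⟨k, hk | hk⟩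
      · -- index `2k`, with `k ≥ 2`
        have h₁ := ih (k + 1) (by omega)
        have h₂ := ih k (by omega)
        have h₃ := ih (k - 1) (by omega)
        have hk1 : ((k - 1 : ℕ) : ℤ) = (k : ℤ) - 1 := by omega
        rw [hk]
        rw [hk1] at h₃
        push_cast at h₁ h₂ ⊢
        refine mul_left_cancel₀ (pow_ne_zero 2 hβ) (somos_step_even
          (f := normEDS β γ δ (k + 3)) (e := normEDS β γ δ (k + 2))
          (d' := normEDS β γ δ (k + 1)) (c' := normEDS β γ δ k)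
          (b' := normEDS β γ δ (k - 1)) (a := normEDS β γ δ (k - 2))
          (g := normEDS β γ δ (k - 3)) ?_ h₂ ?_ ?_ ?_ ?_ ?_ ?_)
        · convert! h₁ using 2 <;> ring_nf
        · convert! h₃ using 2 <;> ring_nf
        · convert! hev ((k : ℤ) + 1) using 1 <;> ring_nf
        · convert! hev ((k : ℤ) - 1) using 1 <;> ring_nf
        · convert! hod k using 1 <;> ring_nf
        · convert! hod ((k : ℤ) - 1) using 1 <;> ring_nf
        · convert! hev k using 1 <;> ring_nf
      · -- index `2k+1`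
        have h₁ := ih (k + 1) (by omega)
        have h₂ := ih k (by omega)
        rw [hk]
        push_cast at h₁ h₂ ⊢
        refine somos_step_odd
          (f := normEDS β γ δ (k + 3)) (e := normEDS β γ δ (k + 2))
          (d' := normEDS β γ δ (k + 1)) (c' := normEDS β γ δ k)
          (b' := normEDS β γ δ (k - 1)) (a := normEDS β γ δ (k - 2)) ?_ h₂ ?_ ?_ ?_ ?_ ?_
        · convert! h₁ using 2 <;> ring_nf
        · convert! hod ((k : ℤ) + 1) using 1 <;> ring_nf
        · convert! hod ((k : ℤ) - 1) using 1 <;> ring_nf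
        · convert! hev ((k : ℤ) + 1) using 1 <;> ring_nf
        · convert! hev k using 1 <;> ring_nf
        · convert! hod k using 1 <;> ring_nf

/-- The Somos-4 relation for a normalised elliptic divisibility sequence. -/
theorem normEDS_somos (b c d : R) (m : ℤ) :
    normEDS b c d (m + 2) * normEDS b c d (m - 2) =
      b ^ 2 * normEDS b c d (m + 1) * normEDS b c d (m - 1) - c * normEDS b c d m ^ 2 := by
  have key : ∀ n : ℕ, normEDS b c d (n + 2) * normEDS b c d (n - 2) =
      b ^ 2 * normEDS b c d (n + 1) * normEDS b c d (n - 1) - c * normEDS b c d n ^ 2 := by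
    intro n
    have h := congrArg (MvPolynomial.eval₂Hom (Int.castRingHom R) ![b, c, d])
      (normEDS_somos_of_domain (MvPolynomial.X_ne_zero (R := ℤ) (0 : Fin 3))
        (MvPolynomial.X 1) (MvPolynomial.X 2) n)
    simpa only [map_mul, map_sub, map_pow, map_normEDS, MvPolynomial.eval₂Hom_X',
      Matrix.cons_val_zero, Matrix.cons_val_one, Matrix.cons_val_two, Matrix.tail_cons,
      Matrix.head_cons] using h
  obtain ⟨n, rfl | rfl⟩ := m.eq_nat_or_neg
  · exact key n
  · rw [show -(n : ℤ) + 2 = -((n : ℤ) - 2) by ring, show -(n : ℤ) - 2 = -((n : ℤ) + 2) by ring,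
      show -(n : ℤ) + 1 = -((n : ℤ) - 1) by ring, show -(n : ℤ) - 1 = -((n : ℤ) + 1) by ring]
    simp only [normEDS_neg]
    linear_combination key n

/-- The normalised EDS with initial values `2`, `3`, `2` is the identity sequence. -/
theorem normEDS_two_three_two (n : ℕ) : normEDS (2 : ℤ) 3 2 n = n := by
  induction n using normEDSRec with
  | zero => simp
  | one => simp
  | two => exact normEDS_two ..
  | three => exact normEDS_three ..
  | four => exact normEDS_four ..
  | even m h₁ h₂ h₃ h₄ h₅ =>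
    have h := normEDS_even (2 : ℤ) 3 2 ((m : ℤ) + 3)
    rw [show (m : ℤ) + 3 - 1 = (m + 2 : ℕ) by push_cast; ring,
      show (m : ℤ) + 3 - 2 = (m + 1 : ℕ) by push_cast; ring,
      show (m : ℤ) + 3 + 1 = (m + 4 : ℕ) by push_cast; ring,
      show (m : ℤ) + 3 + 2 = (m + 5 : ℕ) by push_cast; ring,
      show (m : ℤ) + 3 = (m + 3 : ℕ) by push_cast; ring] at h
    rw [h₁, h₂, h₃, h₄, h₅] at h
    apply mul_right_cancel₀ (two_ne_zero (α := ℤ))
    push_cast at h ⊢
    rw [h]
    ring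
  | odd m h₁ h₂ h₃ h₄ =>
    have h := normEDS_odd (2 : ℤ) 3 2 ((m : ℤ) + 2)
    rw [show (m : ℤ) + 2 - 1 = (m + 1 : ℕ) by push_cast; ring,
      show (m : ℤ) + 2 + 1 = (m + 3 : ℕ) by push_cast; ring,
      show (m : ℤ) + 2 + 2 = (m + 4 : ℕ) by push_cast; ring,
      show (m : ℤ) + 2 = (m + 2 : ℕ) by push_cast; ring] at h
    rw [h₁, h₂, h₃, h₄] at h
    push_cast at h ⊢
    rw [h]
    ring

/-- The invariant of the Somos-4 relation, in a domain in which the sequence does not vanish. -/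
private lemma normEDS_invariant_of_domain [IsDomain R] {β γ K : R}
    (hne : ∀ n : ℕ, 0 < n → normEDS β γ (γ * K - β ^ 4) n ≠ 0) (m : ℕ) :
    normEDS β γ (γ * K - β ^ 4) ((m : ℤ) - 2) * normEDS β γ (γ * K - β ^ 4) (m + 1) ^ 2 +
        normEDS β γ (γ * K - β ^ 4) ((m : ℤ) - 1) ^ 2 * normEDS β γ (γ * K - β ^ 4) (m + 2) +
        β ^ 2 * normEDS β γ (γ * K - β ^ 4) m ^ 3 =
      K * normEDS β γ (γ * K - β ^ 4) ((m : ℤ) - 1) * normEDS β γ (γ * K - β ^ 4) m *
        normEDS β γ (γ * K - β ^ 4) (m + 1) := by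
  set δ := γ * K - β ^ 4 with hδ
  induction m with
  | zero => simp
  | succ n ih =>
    match n with
    | 0 => norm_num
    | 1 => norm_num; rw [hδ]; ring
    | n + 2 =>
      have r₀ := normEDS_somos β γ δ ((n : ℤ) + 2)
      have r₁ := normEDS_somos β γ δ ((n : ℤ) + 3)
      have hb : normEDS β γ δ ((n : ℤ) + 1) ≠ 0 := by
        simpa using hne (n + 1) n.succ_pos
      apply mul_left_cancel₀ hb
      push_cast at ih ⊢
      ring_nf at ih r₀ r₁ ⊢
      linear_combination normEDS β γ δ (4 + n) * ih +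
        normEDS β γ δ (2 + n) ^ 2 * r₁ - normEDS β γ δ (3 + n) ^ 2 * r₀

/-- The invariant of the Somos-4 relation for a normalised elliptic divisibility sequence whose
parameters satisfy `d = c K - b⁴`. -/
theorem normEDS_invariant {b c d K : R} (hd : d = c * K - b ^ 4) (m : ℤ) :
    normEDS b c d (m - 2) * normEDS b c d (m + 1) ^ 2 +
        normEDS b c d (m - 1) ^ 2 * normEDS b c d (m + 2) + b ^ 2 * normEDS b c d m ^ 3 =
      K * normEDS b c d (m - 1) * normEDS b c d m * normEDS b c d (m + 1) := by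
  subst hd
  have hne : ∀ n : ℕ, 0 < n → normEDS (MvPolynomial.X 0 : MvPolynomial (Fin 3) ℤ)
      (MvPolynomial.X 1) (MvPolynomial.X 1 * MvPolynomial.X 2 - MvPolynomial.X 0 ^ 4) n ≠ 0 := by
    intro n hn h
    replace h := congrArg (MvPolynomial.eval₂Hom (RingHom.id ℤ) ![2, 3, 6]) h
    rw [map_zero, map_normEDS] at h
    simp only [map_mul, map_sub, map_pow, MvPolynomial.eval₂Hom_X', Matrix.cons_val_zero,
      Matrix.cons_val_one, Matrix.cons_val] at h
    rw [show (3 : ℤ) * 6 - 2 ^ 4 = 2 by norm_num, normEDS_two_three_two] at h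
    omega
  have key : ∀ n : ℕ,
      normEDS b c (c * K - b ^ 4) ((n : ℤ) - 2) * normEDS b c (c * K - b ^ 4) (n + 1) ^ 2 +
          normEDS b c (c * K - b ^ 4) ((n : ℤ) - 1) ^ 2 * normEDS b c (c * K - b ^ 4) (n + 2) +
          b ^ 2 * normEDS b c (c * K - b ^ 4) n ^ 3 =
        K * normEDS b c (c * K - b ^ 4) ((n : ℤ) - 1) * normEDS b c (c * K - b ^ 4) n *
          normEDS b c (c * K - b ^ 4) (n + 1) := by
    intro n
    have h := congrArg (MvPolynomial.eval₂Hom (Int.castRingHom R) ![b, c, K])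
      (normEDS_invariant_of_domain hne n)
    simpa only [map_mul, map_add, map_sub, map_pow, map_normEDS, MvPolynomial.eval₂Hom_X',
      Matrix.cons_val_zero, Matrix.cons_val_one, Matrix.cons_val_two, Matrix.tail_cons,
      Matrix.head_cons] using h
  obtain ⟨n, rfl | rfl⟩ := m.eq_nat_or_neg
  · exact key n
  · rw [show -(n : ℤ) + 2 = -((n : ℤ) - 2) by ring, show -(n : ℤ) - 2 = -((n : ℤ) + 2) by ring,
      show -(n : ℤ) + 1 = -((n : ℤ) - 1) by ring, show -(n : ℤ) - 1 = -((n : ℤ) + 1) by ring]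
    simp only [normEDS_neg]
    linear_combination -key n

end Somos

end Fermat.Agent.EC
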