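import Mathlib.AlgebraicGeometry.EllipticCurve.Affine.Point
import Mathlib.AlgebraicGeometry.EllipticCurve.DivisionPolynomial.Basic
import Mathlib.FieldTheory.IsAlgClosed.AlgebraicClosure
import Mathlib.Tactic.LinearCombination
import Fermat.Agent.EC.DivPoly.Somos

/-!
# Multiplication by `n` on a Weierstrass curve in terms of division polynomials

For a nonsingular affine point `P = (x, y)` of a Weierstrass curve over a field and `n : ℤ`:

* `zsmul_some_eq_zero_iff`: `n • P = 0 ↔ ΨSqₙ(x) = 0`;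
* `zsmul_some_eq_some`: otherwise `n • P` has abscissa `Φₙ(x) / ΨSqₙ(x)`;
* `zsmul_some_psiTwo`: its value of `2Y + a₁X + a₃` is `ψ₂ₙ(P) / ψₙ(P)⁴`.

The curve need not be elliptic.
-/

open Polynomial
open scoped Polynomial.Bivariate

namespace Fermat.Agent.EC

open WeierstrassCurve

variable {F : Type*} [Field F] {W : WeierstrassCurve.Affine F} {x y : F}

section Eval

/-- The `n`-th division polynomial evaluated at `(x, y)`, as a normalised EDS. -/
theorem evalEval_ψ_eq_normEDS (n : ℤ) :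
    (W.ψ n).evalEval x y =
      normEDS (y - W.negY x y) (W.Ψ₃.eval x) (W.preΨ₄.eval x) n := by
  rw [← coe_evalEvalRingHom, WeierstrassCurve.ψ, map_normEDS]
  congr 1
  · rw [coe_evalEvalRingHom, ψ₂, Affine.evalEval_polynomialY, Affine.negY]
    ring
  · simp
  · simp

theorem sq_sub_negY (h : W.Equation x y) : (y - W.negY x y) ^ 2 = W.Ψ₂Sq.eval x := by
  rw [Affine.equation_iff] at h
  simp only [Ψ₂Sq, Affine.negY, b₂, b₄, b₆, eval_add, eval_mul, eval_C, eval_pow, eval_X]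
  linear_combination 4 * h

theorem eval_Ψ₃_eq (h : W.Equation x y) :
    W.Ψ₃.eval x = (3 * x + W.a₂) * (y - W.negY x y) ^ 2 -
      W.a₁ * (y - W.negY x y) * (3 * x ^ 2 + 2 * W.a₂ * x + W.a₄ - W.a₁ * y) -
      (3 * x ^ 2 + 2 * W.a₂ * x + W.a₄ - W.a₁ * y) ^ 2 := by
  rw [Affine.equation_iff] at h
  simp only [Ψ₃, Affine.negY, b₂, b₄, b₆, b₈, eval_add, eval_mul, eval_C, eval_pow, eval_X,
    eval_ofNat]
  linear_combination (-(12 * x + W.a₁ ^ 2 + 4 * W.a₂)) * h

theorem eval_preΨ₄_eq (W : WeierstrassCurve.Affine F) (x : F) :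
    W.preΨ₄.eval x =
      W.Ψ₃.eval x * (6 * x ^ 2 + W.b₂ * x + W.b₄) - W.Ψ₂Sq.eval x ^ 2 := by
  simp only [preΨ₄, Ψ₃, Ψ₂Sq, b₂, b₄, b₆, b₈, eval_add, eval_mul, eval_C, eval_pow, eval_X,
    eval_ofNat]
  ring

/-- The value `δ = γK - β⁴` in terms of `β = ψ₂(P)` and `γ = ψ₃(P)`. -/
theorem eval_preΨ₄_eq' (h : W.Equation x y) :
    W.preΨ₄.eval x = W.Ψ₃.eval x * (2 * (3 * x ^ 2 + 2 * W.a₂ * x + W.a₄ - W.a₁ * y) +
      W.a₁ * (y - W.negY x y)) - (y - W.negY x y) ^ 4 := by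
  rw [eval_preΨ₄_eq, ← sq_sub_negY h]
  simp only [Affine.negY, b₂, b₄]
  ring

theorem eval_ΨSq_eq (h : W.Equation x y) (n : ℤ) :
    (W.ΨSq n).eval x = (W.ψ n).evalEval x y ^ 2 := by
  rw [evalEval_ψ_eq_normEDS, ΨSq, WeierstrassCurve.preΨ, normEDS, ← coe_evalRingHom, map_mul,
    map_pow, map_preNormEDS, coe_evalRingHom, eval_pow, ← sq_sub_negY h]
  rw [show ((y - W.negY x y) ^ 2) ^ 2 = (y - W.negY x y) ^ 4 by ring]
  split_ifs
  · rw [← sq_sub_negY h]; ring
  · rw [eval_one]; ring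

theorem eval_Φ_eq (h : W.Equation x y) (n : ℤ) :
    (W.Φ n).eval x = x * (W.ψ n).evalEval x y ^ 2 -
      (W.ψ (n + 1)).evalEval x y * (W.ψ (n - 1)).evalEval x y := by
  have key : ∀ m : ℤ, (W.preΨ m).eval x =
      preNormEDS ((y - W.negY x y) ^ 4) (W.Ψ₃.eval x) (W.preΨ₄.eval x) m := by
    intro m
    rw [WeierstrassCurve.preΨ, ← coe_evalRingHom, map_preNormEDS, coe_evalRingHom, eval_pow,
      ← sq_sub_negY h]
    congr 1
    ring
  rw [← eval_ΨSq_eq h, WeierstrassCurve.Φ, eval_sub, eval_mul, eval_X]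
  simp only [evalEval_ψ_eq_normEDS, normEDS, eval_mul, key, Int.even_add_one, Int.even_sub_one,
    ite_not]
  split_ifs
  · rw [eval_one]; ring
  · rw [← sq_sub_negY h]; ring

end Eval

section Group

variable [DecidableEq F]

/-- Addition of two points with distinct abscissae, with the abscissa of the difference and the
value of `2Y + a₁X + a₃` of the sum. -/
private lemma add_point_aux {x₁ y₁ x₀ y₀ : F} (h₁ : W.Nonsingular x₁ y₁) (h : W.Nonsingular x y)
    (h₀ : W.Nonsingular x₀ y₀) (hx : x₁ ≠ x)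
    (hsub : Affine.Point.some x₁ y₁ h₁ - Affine.Point.some x y h =
      Affine.Point.some x₀ y₀ h₀) :
    ∃ x' y' h', Affine.Point.some x₁ y₁ h₁ + Affine.Point.some x y h =
        Affine.Point.some x' y' h' ∧
      x' = x₀ - (y₁ - W.negY x₁ y₁) * (y - W.negY x y) / (x - x₁) ^ 2 ∧
      y' - W.negY x' y' = ((y - W.negY x y) * (x₁ - x') - (y₁ - W.negY x₁ y₁) * (x - x')) /
        (x - x₁) := by
  have e₀ : W.addX x₁ x (W.slope x₁ x y₁ (W.negY x y)) = x₀ := by
    rw [sub_eq_add_neg, Affine.Point.neg_some, Affine.Point.add_of_X_ne hx,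
      Affine.Point.some.injEq] at hsub
    exact hsub.1
  refine ⟨_, _, _, Affine.Point.add_of_X_ne hx, ?_, ?_⟩
  · rw [Affine.addX_eq_addX_negY_sub y₁ y hx, e₀]
  · exact Affine.addY_sub_negY_addY y₁ y hx

/-- Doubling of a point which is not `2`-torsion. -/
private lemma double_point_aux (h : W.Nonsingular x y) (hβ : y - W.negY x y ≠ 0) :
    ∃ x' y' h', Affine.Point.some x y h + Affine.Point.some x y h =
        Affine.Point.some x' y' h' ∧
      (x - x') * (y - W.negY x y) ^ 2 = W.Ψ₃.eval x ∧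
      (y' - W.negY x' y') * (y - W.negY x y) ^ 3 = W.preΨ₄.eval x := by
  have hy : y ≠ W.negY x y := sub_ne_zero.mp hβ
  refine ⟨_, _, _, Affine.Point.add_self_of_Y_ne hy, ?_, ?_⟩
  all_goals rw [Affine.slope_of_Y_ne rfl hy]
  all_goals set β := y - W.negY x y with hb
  all_goals set N := 3 * x ^ 2 + 2 * W.a₂ * x + W.a₄ - W.a₁ * y with hN
  · rw [eval_Ψ₃_eq h.left, ← hb, ← hN, Affine.addX]
    field_simp
    ring
  · rw [eval_preΨ₄_eq' h.left, eval_Ψ₃_eq h.left, ← hb, ← hN]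
    simp only [Affine.addY, Affine.negAddY, Affine.addX, Affine.negY] at hb ⊢
    field_simp
    rw [hb]
    ring

/-- The induction statement: the multiple `k • P` is described by the values `u` of the division
polynomials at `P`. -/
private def MulData (W : WeierstrassCurve.Affine F) (P : W.Point) (u : ℤ → F) (x : F) (k : ℕ) :
    Prop :=
  (k • P = 0 ∧ u k = 0) ∨ (u k ≠ 0 ∧ ∃ x' y' h', k • P = Affine.Point.some x' y' h' ∧
    x' * u k ^ 2 = x * u k ^ 2 - u (k + 1) * u (k - 1) ∧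
    (y' - W.negY x' y') * u k ^ 4 = u (2 * k))

/-- The case of a `2`-torsion point. -/
private lemma mulData_of_two_torsion (h : W.Nonsingular x y) (hβ : y - W.negY x y = 0) (k : ℕ) :
    MulData W (Affine.Point.some x y h)
      (normEDS (y - W.negY x y) (W.Ψ₃.eval x) (W.preΨ₄.eval x)) x k := by
  set u := normEDS (y - W.negY x y) (W.Ψ₃.eval x) (W.preΨ₄.eval x) with hu
  set P := Affine.Point.some x y h with hP
  have hγ : W.Ψ₃.eval x ≠ 0 := by
    rw [eval_Ψ₃_eq h.left, hβ]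
    have hN : W.a₁ * y - (3 * x ^ 2 + 2 * W.a₂ * x + W.a₄) ≠ 0 := by
      refine ((Affine.nonsingular_iff' ..).mp h).2.resolve_right (not_not.mpr ?_)
      rw [← hβ, Affine.negY]
      ring
    intro h0
    exact hN (sq_eq_zero_iff.mp (by linear_combination -h0))
  have h2P : 2 • P = 0 := by
    rw [two_nsmul]
    exact Affine.Point.add_self_of_Y_eq (sub_eq_zero.mp hβ)
  have heven : ∀ m : ℤ, Even m → u m = 0 := fun m hm => by
    simp only [hu, normEDS, if_pos hm, hβ, mul_zero]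
  have hodd : ∀ j : ℕ, u (2 * j + 1) ≠ 0 := by
    intro j
    induction j with
    | zero => simp [hu]
    | succ j ih =>
      intro h0
      have e := normEDS_somos (y - W.negY x y) (W.Ψ₃.eval x) (W.preΨ₄.eval x) (2 * j + 1)
      rw [← hu, show (2 * (j : ℤ) + 1 + 2) = 2 * ((j + 1 : ℕ) : ℤ) + 1 by push_cast; ring, h0,
        hβ] at e
      exact mul_ne_zero hγ (pow_ne_zero 2 ih) (by linear_combination e)
  obtain ⟨j, rfl | rfl⟩ := Nat.even_or_odd' k
  · exact Or.inl ⟨by rw [mul_comm, mul_nsmul', h2P, smul_zero],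
      heven _ (by push_cast; exact even_two_mul _)⟩
  · refine Or.inr ⟨by push_cast; exact hodd j, x, y, h, ?_, ?_, ?_⟩
    · rw [succ_nsmul, mul_comm, mul_nsmul', h2P, smul_zero, zero_add]
    · rw [heven _ (show Even (((2 * j + 1 : ℕ) : ℤ) + 1) from ⟨j + 1, by push_cast; ring⟩)]
      ring
    · rw [heven _ (even_two_mul _), hβ, zero_mul]

private lemma mulData (h : W.Nonsingular x y) (k : ℕ) :
    MulData W (Affine.Point.some x y h)
      (normEDS (y - W.negY x y) (W.Ψ₃.eval x) (W.preΨ₄.eval x)) x k := by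
  by_cases hβ : y - W.negY x y = 0
  · exact mulData_of_two_torsion h hβ k
  set β := y - W.negY x y with hb
  set γ := W.Ψ₃.eval x with hg
  set δ := W.preΨ₄.eval x with hd
  set K := 2 * (3 * x ^ 2 + 2 * W.a₂ * x + W.a₄ - W.a₁ * y) + W.a₁ * β with hK
  have hδ : δ = γ * K - β ^ 4 := eval_preΨ₄_eq' h.left
  set u := normEDS β γ δ with hu
  set P := Affine.Point.some x y h with hP
  have hS : ∀ m : ℤ, u (m + 2) * u (m - 2) = β ^ 2 * u (m + 1) * u (m - 1) - γ * u m ^ 2 :=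
    normEDS_somos β γ δ
  have hI : ∀ m : ℤ, u (m - 2) * u (m + 1) ^ 2 + u (m - 1) ^ 2 * u (m + 2) + β ^ 2 * u m ^ 3 =
      K * u (m - 1) * u m * u (m + 1) := normEDS_invariant hδ
  have hE : ∀ m : ℤ, u (2 * m) * β = u (m - 1) ^ 2 * u m * u (m + 2) -
      u (m - 2) * u m * u (m + 1) ^ 2 := normEDS_even β γ δ
  have hP0 : P ≠ 0 := Affine.Point.some_ne_zero h
  induction k using Nat.twoStepInduction with
  | zero => exact Or.inl ⟨zero_nsmul P, normEDS_zero ..⟩
  | one =>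
    exact Or.inr ⟨by simp [hu], x, y, h, one_nsmul P, by simp [hu], by simp [hu, hb]⟩
  | more n ihn ihm =>
    -- abbreviate the relevant values
    have hs1 := hS ((n : ℤ) + 1)
    have hs2 := hS ((n : ℤ) + 2)
    have hi2 := hI ((n : ℤ) + 2)
    have he0 := hE (n : ℤ)
    have he1 := hE ((n : ℤ) + 1)
    have he2 := hE ((n : ℤ) + 2)
    rw [show (n : ℤ) + 1 + 2 = n + 3 by ring, show (n : ℤ) + 1 - 2 = n - 1 by ring,
      show (n : ℤ) + 1 + 1 = n + 2 by ring, show (n : ℤ) + 1 - 1 = n by ring] at hs1 he1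
    rw [show (n : ℤ) + 2 + 2 = n + 4 by ring, show (n : ℤ) + 2 - 2 = n by ring,
      show (n : ℤ) + 2 + 1 = n + 3 by ring, show (n : ℤ) + 2 - 1 = n + 1 by ring] at hs2 hi2 he2
    unfold MulData at ihn ihm ⊢
    push_cast at ihm ⊢
    rw [show (n : ℤ) + 1 + 1 = n + 2 by ring, show (n : ℤ) + 1 - 1 = n by ring] at ihm
    rw [show (n : ℤ) + 2 + 1 = n + 3 by ring, show (n : ℤ) + 2 - 1 = n + 1 by ring]
    have hsucc : (n + 1) • P = n • P + P := succ_nsmul P n
    have hsucc' : (n + 2) • P = (n + 1) • P + P := succ_nsmul P (n + 1)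
    rcases ihm with ⟨hm0, hum⟩ | ⟨hum, x₁, y₁, h₁, hm, hx₁, hd₁⟩
    · -- `(n + 1) • P = 0`
      rw [hm0] at hsucc
      have hn : n • P = -P := eq_neg_of_add_eq_zero_left hsucc.symm
      rcases ihn with ⟨hn0, -⟩ | ⟨hun, x₀, y₀, h₀, hn', hx₀, hd₀⟩
      · exact absurd (neg_eq_zero.mp (hn.symm.trans hn0)) hP0
      rw [hn, hP, Affine.Point.neg_some, Affine.Point.some.injEq] at hn'
      obtain ⟨rfl, rfl⟩ := hn'
      rw [show W.negY x y - W.negY x (W.negY x y) = -β by rw [Affine.negY_negY, hb]; ring] at hd₀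
      have key : u ((n : ℤ) - 1) ^ 2 * u (n + 2) = -β ^ 2 * u n ^ 3 := by
        apply mul_left_cancel₀ hun
        rw [hum] at he0
        linear_combination -he0 + (-β) * hd₀
      have h' : u ((n : ℤ) + 2) ≠ 0 ∧ u ((n : ℤ) - 1) ≠ 0 := by
        have hne : -β ^ 2 * u n ^ 3 ≠ 0 :=
          mul_ne_zero (neg_ne_zero.mpr (pow_ne_zero 2 hβ)) (pow_ne_zero 3 hun)
        rw [← key] at hne
        exact ⟨right_ne_zero_of_mul hne, fun h0 => hne (by rw [h0]; ring)⟩
      refine Or.inr ⟨h'.1, x, y, h, by rw [hsucc', hm0, zero_add], by rw [hum]; ring, ?_⟩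
      rw [hum] at he2
      apply mul_left_cancel₀ (mul_ne_zero hβ (pow_ne_zero 2 h'.2))
      rw [← hb]
      linear_combination (-u ((n : ℤ) - 1) ^ 2) * he2 +
        (u (n + 2) * u n) * (u ((n : ℤ) + 3) * u ((n : ℤ) - 1) + β ^ 2 * u (n + 2) * u n) * hs1 +
        β ^ 2 * u (n + 2) ^ 3 * key -
        (u (n + 2) * u n) * (u ((n : ℤ) + 3) * u ((n : ℤ) - 1) + β ^ 2 * u (n + 2) * u n) * γ *
          u ((n : ℤ) + 1) * hum
    · -- `(n + 1) • P = (x₁, y₁)`
      rcases ihn with ⟨hn0, hun⟩ | ⟨hun, x₀, y₀, h₀, hn, hx₀, hd₀⟩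
      · -- `n • P = 0`, so `(n + 1) • P = P`
        rw [hn0, zero_add] at hsucc
        rw [hsucc, hP, Affine.Point.some.injEq] at hm
        obtain ⟨rfl, rfl⟩ := hm
        have key : β ^ 2 * u (n + 1) ^ 3 = -u ((n : ℤ) - 1) * u (n + 2) ^ 2 := by
          apply mul_left_cancel₀ hum
          rw [hun] at he1
          linear_combination he1 + β * hd₁
        have h' : u ((n : ℤ) + 2) ≠ 0 := fun h0 => by
          have hne := mul_ne_zero (pow_ne_zero 2 hβ) (pow_ne_zero 3 hum)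
          rw [key, h0] at hne
          exact hne (by ring)
        obtain ⟨x', y', h2, hadd, hx', hy'⟩ := double_point_aux h hβ
        refine Or.inr ⟨h', x', y', h2, by rw [hsucc', hsucc]; exact hadd, ?_, ?_⟩
        · apply mul_left_cancel₀ (pow_ne_zero 2 hβ)
          rw [← hb, ← hg] at hx'
          rw [hun] at hs2
          linear_combination (-u ((n : ℤ) + 2) ^ 2) * hx' - hs2
        · apply mul_left_cancel₀ (pow_ne_zero 3 hβ)
          rw [← hb, ← hd] at hy'
          rw [hun] at hs2 hi2 he2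
          linear_combination (u ((n : ℤ) + 2) ^ 4) * hy' - β ^ 2 * he2 -
            β ^ 2 * u ((n : ℤ) + 2) * hi2 + K * u ((n : ℤ) + 2) ^ 2 * hs2 +
            u ((n : ℤ) + 2) ^ 4 * hδ
      · -- neither vanishes
        have hxd : (x - x₁) * u (n + 1) ^ 2 = u (n + 2) * u n := by linear_combination -hx₁
        by_cases h' : u ((n : ℤ) + 2) = 0
        · refine Or.inl ⟨?_, h'⟩
          have hx : x₁ = x := by
            rw [h', zero_mul] at hxd
            exact (sub_eq_zero.mp ((mul_eq_zero.mp hxd).resolve_right (pow_ne_zero 2 hum))).symm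
          rcases (Affine.Point.X_eq_iff (h₁ := h₁) (h₂ := h)).mp hx with he | he
          · rw [← hm, hsucc, ← hP] at he
            rw [add_eq_right, hn] at he
            exact absurd he (Affine.Point.some_ne_zero h₀)
          · rw [hsucc', hm, he, neg_add_cancel]
        have hx : x - x₁ ≠ 0 := fun h0 => by
          rw [h0, zero_mul] at hxd
          exact mul_ne_zero h' hun hxd.symm
        have hsub : Affine.Point.some x₁ y₁ h₁ - P = Affine.Point.some x₀ y₀ h₀ := by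
          rw [← hm, hsucc, add_sub_cancel_right, hn]
        obtain ⟨x', y', h2, hadd, hx', hy'⟩ :=
          add_point_aux h₁ h h₀ (fun e => hx (sub_eq_zero.mpr e.symm)) hsub
        rw [← hb] at hx' hy'
        rw [eq_div_iff hx] at hy'
        have hx'' : x' * u (n + 2) ^ 2 = x * u (n + 2) ^ 2 - u (n + 3) * u (n + 1) := by
          rw [eq_sub_iff_add_eq, ← eq_sub_iff_add_eq'] at hx'
          have hx2 : (x' - x₀) * (x - x₁) ^ 2 = -(y₁ - W.negY x₁ y₁) * β := by
            rw [← neg_sub x₀ x', sub_eq_of_eq_add' (eq_add_of_sub_eq' hx'.symm)]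
            field_simp
          apply mul_left_cancel₀ (pow_ne_zero 2 hun)
          linear_combination (u (n + 1) ^ 4) * hx2 -
            (x' - x₀) * ((x - x₁) * u (n + 1) ^ 2 + u (n + 2) * u n) * hxd +
            u (n + 2) ^ 2 * hx₀ - β * hd₁ - he1
        refine Or.inr ⟨h', x', y', h2, by rw [hsucc', hm]; exact hadd, hx'', ?_⟩
        apply mul_left_cancel₀ (mul_ne_zero (mul_ne_zero hun hum) hβ)
        linear_combination
          (u (n + 1) ^ 3 * u (n + 2) ^ 3 * β) * hy' -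
          (β * u (n + 1) * u (n + 2) ^ 3 * (y' - W.negY x' y')) * hxd +
          (β ^ 2 * u (n + 1) * u (n + 2) ^ 3) * hx₁ -
          (β * (β - (y₁ - W.negY x₁ y₁)) * u (n + 1) ^ 3 * u (n + 2)) * hx'' -
          (u (n + 2) * u (n + 3)) * (β * hd₁ + he1) -
          (u n * u (n + 1)) * he2 -
          u (n + 1) ^ 3 * u (n + 2) * hs2 + u (n + 1) * u (n + 2) ^ 3 * hs1

theorem zsmul_some_data (h : W.Nonsingular x y) (n : ℤ) :
    (n • Affine.Point.some x y h = 0 ∧ (W.ΨSq n).eval x = 0) ∨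
      ((W.ΨSq n).eval x ≠ 0 ∧ ∃ x' y' h', n • Affine.Point.some x y h =
        Affine.Point.some x' y' h' ∧ x' = (W.Φ n).eval x / (W.ΨSq n).eval x ∧
        (y' - W.negY x' y') * (W.ψ n).evalEval x y ^ 4 = (W.ψ (2 * n)).evalEval x y) := by
  rw [eval_ΨSq_eq h.left, eval_Φ_eq h.left]
  simp only [evalEval_ψ_eq_normEDS]
  obtain ⟨k, rfl | rfl⟩ := n.eq_nat_or_neg
  · rcases mulData h k with ⟨hk, hu⟩ | ⟨hu, x', y', h', hk, hx', hy'⟩
    · exact Or.inl ⟨by rw [natCast_zsmul, hk], by rw [hu]; ring⟩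
    · exact Or.inr ⟨pow_ne_zero 2 hu, x', y', h', by rw [natCast_zsmul, hk],
        by rw [eq_div_iff (pow_ne_zero 2 hu), hx'], hy'⟩
  · rw [show -(k : ℤ) + 1 = -((k : ℤ) - 1) by ring, show -(k : ℤ) - 1 = -((k : ℤ) + 1) by ring,
      show 2 * -(k : ℤ) = -(2 * k) by ring]
    simp only [normEDS_neg, neg_zsmul, natCast_zsmul]
    rcases mulData h k with ⟨hk, hu⟩ | ⟨hu, x', y', h', hk, hx', hy'⟩
    · exact Or.inl ⟨by rw [hk, neg_zero], by rw [hu]; ring⟩
    · refine Or.inr ⟨pow_ne_zero 2 (neg_ne_zero.mpr hu), x', W.negY x' y',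
        (Affine.nonsingular_neg x' y').mpr h', ?_, ?_, ?_⟩
      · rw [hk, Affine.Point.neg_some]
      · rw [eq_div_iff (pow_ne_zero 2 (neg_ne_zero.mpr hu))]
        linear_combination hx'
      · rw [Affine.negY_negY]
        linear_combination -hy'

/-- `n • P = 0` if and only if `ΨSqₙ` vanishes at the abscissa of `P`. -/
theorem zsmul_some_eq_zero_iff (h : W.Nonsingular x y) (n : ℤ) :
    n • Affine.Point.some x y h = 0 ↔ (W.ΨSq n).eval x = 0 := by
  rcases zsmul_some_data h n with ⟨h₁, h₂⟩ | ⟨h₁, x', y', h', h₂, -⟩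
  · exact iff_of_true h₁ h₂
  · exact iff_of_false (h₂ ▸ Affine.Point.some_ne_zero h') h₁

theorem nsmul_some_eq_zero_iff (h : W.Nonsingular x y) (n : ℕ) :
    n • Affine.Point.some x y h = 0 ↔ (W.ΨSq n).eval x = 0 := by
  rw [← natCast_zsmul, zsmul_some_eq_zero_iff]

/-- `n • P = 0` if and only if the division polynomial `ψₙ` vanishes at `P`. -/
theorem zsmul_some_eq_zero_iff_ψ (h : W.Nonsingular x y) (n : ℤ) :
    n • Affine.Point.some x y h = 0 ↔ (W.ψ n).evalEval x y = 0 := by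
  rw [zsmul_some_eq_zero_iff h, eval_ΨSq_eq h.left, sq_eq_zero_iff]

/-- The abscissa of `n • P` is `Φₙ(x) / ΨSqₙ(x)`. -/
theorem zsmul_some_eq_some (h : W.Nonsingular x y) (n : ℤ) (hn : (W.ΨSq n).eval x ≠ 0) :
    ∃ y' h', n • Affine.Point.some x y h =
      Affine.Point.some ((W.Φ n).eval x / (W.ΨSq n).eval x) y' h' := by
  rcases zsmul_some_data h n with ⟨-, h₂⟩ | ⟨-, x', y', h', h₂, rfl, -⟩
  · exact absurd h₂ hn
  · exact ⟨y', h', h₂⟩

theorem nsmul_some_eq_some (h : W.Nonsingular x y) (n : ℕ) (hn : (W.ΨSq n).eval x ≠ 0) :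
    ∃ y' h', n • Affine.Point.some x y h =
      Affine.Point.some ((W.Φ n).eval x / (W.ΨSq n).eval x) y' h' := by
  simpa only [natCast_zsmul] using zsmul_some_eq_some h (n : ℤ) hn

/-- If `n • P = (x', y')` then `x' = Φₙ(x) / ΨSqₙ(x)`. -/
theorem eq_of_zsmul_some_eq_some (h : W.Nonsingular x y) {n : ℤ} {x' y' : F}
    {h' : W.Nonsingular x' y'} (hn : n • Affine.Point.some x y h = Affine.Point.some x' y' h') :
    (W.ΨSq n).eval x ≠ 0 ∧ x' * (W.ΨSq n).eval x = (W.Φ n).eval x := by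
  have h0 : (W.ΨSq n).eval x ≠ 0 := by
    rw [ne_eq, ← zsmul_some_eq_zero_iff h, hn]
    exact Affine.Point.some_ne_zero h'
  obtain ⟨y'', h'', he⟩ := zsmul_some_eq_some h n h0
  rw [hn, Affine.Point.some.injEq] at he
  exact ⟨h0, by rw [he.1, div_mul_cancel₀ _ h0]⟩

/-- If `n • P = (x', y')` then `ψ₂(n • P) ψₙ(P)⁴ = ψ₂ₙ(P)`. -/
theorem zsmul_some_psiTwo (h : W.Nonsingular x y) {n : ℤ} {x' y' : F}
    {h' : W.Nonsingular x' y'} (hn : n • Affine.Point.some x y h = Affine.Point.some x' y' h') :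
    (y' - W.negY x' y') * (W.ψ n).evalEval x y ^ 4 = (W.ψ (2 * n)).evalEval x y := by
  rcases zsmul_some_data h n with ⟨h₁, -⟩ | ⟨-, x'', y'', h'', h₁, -, h₂⟩
  · exact absurd (hn.symm.trans h₁) (Affine.Point.some_ne_zero h')
  · rw [hn, Affine.Point.some.injEq] at h₁
    rw [h₁.1, h₁.2]
    exact h₂

/-- `Φₙ` does not vanish at the abscissa of a nonsingular `n`-torsion point. -/
theorem eval_Φ_ne_zero_of_eval_ΨSq_eq_zero (h : W.Nonsingular x y) (n : ℤ)
    (hn : (W.ΨSq n).eval x = 0) : (W.Φ n).eval x ≠ 0 := by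
  have h0 := (zsmul_some_eq_zero_iff h n).mpr hn
  rw [eval_Φ_eq h.left, (zsmul_some_eq_zero_iff_ψ h n).mp h0]
  simp only [zero_pow two_ne_zero, mul_zero, zero_sub, neg_ne_zero]
  refine mul_ne_zero ?_ ?_ <;> rw [ne_eq, ← zsmul_some_eq_zero_iff_ψ h]
  · rw [add_zsmul, h0, zero_add, one_zsmul]
    exact Affine.Point.some_ne_zero h
  · rw [sub_zsmul, h0, one_zsmul, zero_add, neg_eq_zero]
    exact Affine.Point.some_ne_zero h

end Group

/-- `Φₙ` and `ΨSqₙ` are coprime for an elliptic curve over a field. -/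
theorem isCoprime_Φ_ΨSq (W : WeierstrassCurve F) [W.IsElliptic] (n : ℤ) :
    IsCoprime (W.Φ n) (W.ΨSq n) := by
  classical
  let K := AlgebraicClosure F
  rw [Polynomial.isCoprime_iff_aeval_ne_zero_of_isAlgClosed F K]
  intro a
  rw [aeval_def, aeval_def, ← eval_map, ← eval_map, ← map_Φ, ← map_ΨSq]
  set E : Affine K := (W.map (algebraMap F K)).toAffine
  obtain ⟨b, hb⟩ := IsAlgClosed.exists_root
    (X ^ 2 + C (E.a₁ * a + E.a₃) * X - C (a ^ 3 + E.a₂ * a ^ 2 + E.a₄ * a + E.a₆))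
    (ne_of_eq_of_ne (show _ = ((2 : ℕ) : WithBot ℕ) by compute_degree!) (by norm_num))
  have he : E.Equation a b := by
    rw [Affine.equation_iff]
    simp only [IsRoot.def, eval_sub, eval_add, eval_pow, eval_X, eval_mul, eval_C] at hb
    linear_combination hb
  exact or_iff_not_imp_right.mpr fun h0 =>
    eval_Φ_ne_zero_of_eval_ΨSq_eq_zero (Affine.equation_iff_nonsingular.mp he) n (not_not.mp h0)

end Fermat.Agent.EC
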